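/-
S37 / task I2 (helper65, independent backup): the two instances of `H36.EvalHyp` consumed by the
P-H skeleton of helper77, in its exact shape:

* `evalHyp_IN`    : on the integral region `R₁ = H46.IN A N`;
* `evalHyp_compl` : on its complement.

Levels: `F₁ = FN N`, `F₂ = FN (N * q)` via `V = heckeBetaBar Kb N q`, `F₃ = FN (N * ℓ)` via
`α, β = heckeAlphaBar, heckeBetaBar Kb N ℓ`; `g₁ = arithmeticGalois (modularFunctionFieldFull N) s`
for a Frobenius `s` at `A`; `O` = the Gauss ring of `F_{N q}`.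

Suppliers (all landed): region fields `H46.evalHyp_IN` / `H46.evalHyp_IN_compl`; `normV`, `normβ`
`H75.normValueAlong_beta`; `normInt` `H71.norm_mem_gaussO` + `H65.beta_mem_gaussO`; `kron`
`H65.kron_field`; `frob` `H12.frobenius_apply_sub_pow_mem_nonunits`; `inertia_one`
`H75.inertiaDegAlong_alpha`; `exists_over` `H75.exists_over_beta`.
-/
import Mathlib
import Fermat.Agent.S37.H46.EvalFields
import Fermat.Agent.S37.H65.Conj.KronField
import Fermat.Agent.S37.H75.NormValueH36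
import Fermat.Agent.S37.H75.ModularFibre
import Fermat.Agent.S37.H71.NormGauss
import Fermat.Agent.S37.H12.GlueGalois

set_option autoImplicit false
set_option linter.style.haveILetI false
set_option linter.unusedSectionVars false

open AlgebraicCurve ModularCurve

noncomputable section

namespace Fermat.Agent.S37.H65

open Fermat.Agent.S18 Fermat.Agent.S37

open Fermat.Agent.S18.H74 (Kb FN)

section Inst

variable (N q : ℕ) [NeZero N] [NeZero q] {ℓ : ℕ} [Fact ℓ.Prime] [NeZero ℓ]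
  [HasPrincipalDivisors Kb (FN (N * q))] [HasPrincipalDivisors Kb (FN (N * ℓ))]
  (A : ValuationSubring Kb) (hA : A.LiesOverPrime ℓ) (hℓN : ¬ ℓ ∣ N) (hℓM : ¬ ℓ ∣ N * q)

include hℓN in
/-- The `normInt` field: `V (N_V g) ∈ O_{N q}` for `g ∈ O_{N q}`. -/
theorem normInt_field (g : FN (N * q)) (hg : g ∈ H66.gaussO A (N * q) hA hℓM) :
    heckeBetaBar Kb N q (H36.normAlong (heckeBetaBar Kb N q) g) ∈
      H66.gaussO A (N * q) hA hℓM :=
  beta_mem_gaussO A N q hA hℓN hℓM (H71.norm_mem_gaussO N q A hA hℓN hℓM hg)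

include hℓN in
/-- **(I2)** `EvalHyp` on the integral region. -/
theorem evalHyp_IN {s : Kb ≃ₐ[ℚ] Kb} (hs : A.IsFrobeniusAt s ℓ)
    (hV : (heckeBetaBar Kb N q).toRingHom.IsIntegral)
    (hα : (heckeAlphaBar Kb N ℓ).toRingHom.IsIntegral)
    (hβ : (heckeBetaBar Kb N ℓ).toRingHom.IsIntegral)
    {𝔇 : Type*} (cls : Place Kb (FN (N * q)) → 𝔇)
    (R₂ : Set (Place Kb (FN (N * q)))) (B : Set (FN (N * q)))
    (hR₂ : ∀ w, w ∈ R₂ ↔ w ∈ H46.IN A (N * q))
    (hcls : ∀ w ∈ R₂, ∀ w' : Place Kb (FN (N * q)), cls w' = cls w → w' ∈ R₂)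
    (hBO : ∀ y ∈ B, y ∈ H66.gaussO A (N * q) hA hℓM)
    (hBreg : ∀ y ∈ B, ∀ w ∈ R₂, 0 ≤ w.ord y) :
    H36.EvalHyp A (H66.gaussO A (N * q) hA hℓM) cls (heckeBetaBar Kb N q) hV
      (heckeAlphaBar Kb N ℓ) (heckeBetaBar Kb N ℓ) hα hβ
      (arithmeticGalois (modularFunctionFieldFull N) s) ℓ (H46.IN A N) R₂ B := by
  obtain rfl : R₂ = H46.IN A (N * q) := Set.ext hR₂
  exact H46.evalHyp_IN A N q ℓ (H66.gaussO A (N * q) hA hℓM) cls hcls hV hα hβ s
    hs.mem_decompositionSubgroup B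
    (H75.normValueAlong_beta N q hV) (H75.normValueAlong_beta N ℓ hβ)
    (normInt_field N q A hA hℓN hℓM)
    (kron_field A N q hA hℓN hℓM hs)
    hBO hBreg
    (fun a ha => H12.frobenius_apply_sub_pow_mem_nonunits hs ha)
    (H75.inertiaDegAlong_alpha N ℓ hα) (H75.exists_over_beta N q hV)

include hℓN in
/-- **(I2')** `EvalHyp` on the complement of the integral region. -/
theorem evalHyp_compl {s : Kb ≃ₐ[ℚ] Kb} (hs : A.IsFrobeniusAt s ℓ)
    (hV : (heckeBetaBar Kb N q).toRingHom.IsIntegral)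
    (hα : (heckeAlphaBar Kb N ℓ).toRingHom.IsIntegral)
    (hβ : (heckeBetaBar Kb N ℓ).toRingHom.IsIntegral)
    {𝔇 : Type*} (cls : Place Kb (FN (N * q)) → 𝔇)
    (R₂ : Set (Place Kb (FN (N * q)))) (B : Set (FN (N * q)))
    (hR₂ : ∀ w, w ∈ R₂ ↔ w ∉ H46.IN A (N * q))
    (hcls : ∀ w ∈ R₂, ∀ w' : Place Kb (FN (N * q)), cls w' = cls w → w' ∈ R₂)
    (hBO : ∀ y ∈ B, y ∈ H66.gaussO A (N * q) hA hℓM)
    (hBreg : ∀ y ∈ B, ∀ w ∈ R₂, 0 ≤ w.ord y) :
    H36.EvalHyp A (H66.gaussO A (N * q) hA hℓM) cls (heckeBetaBar Kb N q) hV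
      (heckeAlphaBar Kb N ℓ) (heckeBetaBar Kb N ℓ) hα hβ
      (arithmeticGalois (modularFunctionFieldFull N) s) ℓ (H46.IN A N)ᶜ R₂ B := by
  obtain rfl : R₂ = (H46.IN A (N * q))ᶜ := Set.ext hR₂
  exact H46.evalHyp_IN_compl A N q ℓ (H66.gaussO A (N * q) hA hℓM) cls hcls hV hα hβ s
    hs.mem_decompositionSubgroup B
    (H75.normValueAlong_beta N q hV) (H75.normValueAlong_beta N ℓ hβ)
    (normInt_field N q A hA hℓN hℓM)
    (kron_field A N q hA hℓN hℓM hs)
    hBO hBreg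
    (fun a ha => H12.frobenius_apply_sub_pow_mem_nonunits hs ha)
    (H75.inertiaDegAlong_alpha N ℓ hα) (H75.exists_over_beta N q hV)

end Inst

end Fermat.Agent.S37.H65
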